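import Fermat.Agent.MU.S56.Local.Walls
import Fermat.Agent.MU.F4.PT.Defs

section MergeWrap_S56_W2_Interfaces -- from S56/W2/Interfaces.lean

set_option autoImplicit false

namespace Fermat.Agent.S56

open Fermat.Agent.F4 ExtCitation

/-- **Wall W2-EC** (lower bound for `#H¹(G_S, A^*(1))`; Tate's global Euler characteristic). -/
def ECLower (p : ℕ) [Fact p.Prime] : Prop :=
  ∀ (S : Finset Nat.Primes) (A : Rep (ZMod p) GQ), pPrime p ∈ S → Module.Finite (ZMod p) A →
    IsSmooth (levelsS S) A →
    Finite (H1sm (levelsS S) (A.dualTwist (cycloChar p))) ∧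
    Nat.card (H0glob (A.dualTwist (cycloChar p))) * Nat.card (sha1sm S A) *
        (∏ v ∈ S, Nat.card (H0loc A v)) * Nat.card (H0arch A)
      ≤ Nat.card (H1sm (levelsS S) (A.dualTwist (cycloChar p))) * Nat.card (H0glob A)

end Fermat.Agent.S56
end MergeWrap_S56_W2_Interfaces
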